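/-
P-SS2 row 896 (SS2-A5 EISDVR), Mathlib only: an Eisenstein extension of a discrete valuation
ring is a discrete valuation ring.

`D` a DVR with uniformiser `x`, `P ∈ D[T]` monic of degree `n ≥ 1` with `x ∣ coeff i` for `i < n`
and `coeff 0 = x * (unit)`, `z` a root of `P` in a field `L ⊇ D`.  Then `R := D[z]` is a DVR,
`z` is a uniformiser of `R`, and `x = z ^ n * (unit of R)`.
-/
import Mathlib

set_option autoImplicit false

open Polynomial IsLocalRing

namespace Fermat.Agent.H96.SS2

/-- A unit plus an element of the Jacobson radical is a unit. -/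
theorem isUnit_add_of_mem_jacobson {S : Type*} [CommRing S] {c t : S} (hc : IsUnit c)
    (ht : t ∈ Ideal.jacobson (⊥ : Ideal S)) (y : S) : IsUnit (c + t * y) := by
  obtain ⟨c', rfl⟩ := hc
  have h := Ideal.mem_jacobson_bot.mp ht (y * (↑c'⁻¹ : S))
  have e : (c' : S) + t * y = c' * (t * (y * (↑c'⁻¹ : S)) + 1) := by
    have h1 : (c' : S) * (↑c'⁻¹ : S) = 1 := c'.mul_inv
    calc (c' : S) + t * y = c' + t * y * ((c' : S) * (↑c'⁻¹ : S)) := by rw [h1, mul_one]
      _ = c' * (t * (y * (↑c'⁻¹ : S)) + 1) := by ring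
  rw [e]
  exact c'.isUnit.mul h

section

variable {D L : Type*} [CommRing D] [IsDomain D] [IsDiscreteValuationRing D]
  [Field L] [Algebra D L]

/-- **Core of EISDVR.** -/
theorem eis_core (hinj : Function.Injective (algebraMap D L))
    {x : D} (hx : Irreducible x) {P : D[X]} (hmon : P.Monic) (hdeg : 0 < P.natDegree)
    (hlow : ∀ i, i < P.natDegree → x ∣ P.coeff i)
    (h0 : ∃ w : D, IsUnit w ∧ P.coeff 0 = x * w)
    {z : L} (hz : aeval z P = 0) :
    (∀ r : Algebra.adjoin D {z},
      r ∈ Ideal.span {(⟨z, Algebra.self_mem_adjoin_singleton D z⟩ : Algebra.adjoin D {z})} ∨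
        IsUnit r) ∧
    ¬ IsUnit (⟨z, Algebra.self_mem_adjoin_singleton D z⟩ : Algebra.adjoin D {z}) ∧
    (⟨z, Algebra.self_mem_adjoin_singleton D z⟩ : Algebra.adjoin D {z}) ≠ 0 ∧
    ∃ v : (Algebra.adjoin D {z})ˣ,
      algebraMap D (Algebra.adjoin D {z}) x =
        (⟨z, Algebra.self_mem_adjoin_singleton D z⟩ : Algebra.adjoin D {z}) ^ P.natDegree * v := by
  classical
  set R := Algebra.adjoin D {z} with hR
  set z' : R := ⟨z, Algebra.self_mem_adjoin_singleton D z⟩ with hz'
  obtain ⟨w, hw, hw0⟩ := h0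
  have hzint : IsIntegral D z := ⟨P, hmon, by rw [← aeval_def]; exact hz⟩
  have : Algebra.IsIntegral D R := Algebra.IsIntegral.adjoin (by
    intro y hy
    rw [Set.mem_singleton_iff.mp hy]
    exact hzint)
  have hcoe : ∀ g : D[X], ((aeval z' g : R) : L) = aeval z g := fun g =>
    (Subalgebra.aeval_coe R z' g).symm
  have hz0 : aeval z' P = 0 := Subtype.ext (by rw [hcoe, hz]; rfl)
  -- `x` lies in the Jacobson radical
  have hxJ : algebraMap D R x ∈ Ideal.jacobson (⊥ : Ideal R) := by
    rw [Ideal.jacobson, Ideal.mem_sInf]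
    rintro M ⟨-, hM⟩
    have := hM
    have h1 : (M.comap (algebraMap D R)).IsMaximal :=
      Ideal.isMaximal_comap_of_isIntegral_of_isMaximal M
    have h2 : M.comap (algebraMap D R) = maximalIdeal D := IsLocalRing.eq_maximalIdeal h1
    have h3 : x ∈ M.comap (algebraMap D R) := by
      rw [h2, mem_maximalIdeal]
      exact hx.not_isUnit
    exact h3
  -- the Eisenstein relation `x * U = - z ^ n`
  have hb : ∀ i, ∃ b : D, i < P.natDegree → P.coeff i = x * b := by
    intro i
    by_cases h : i < P.natDegree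
    · obtain ⟨b, hb⟩ := hlow i h
      exact ⟨b, fun _ => hb⟩
    · exact ⟨0, fun h' => absurd h' h⟩
  choose b hb using hb
  obtain ⟨m, hm⟩ : ∃ m, P.natDegree = m + 1 := ⟨P.natDegree - 1, by omega⟩
  set S : R := ∑ i ∈ Finset.range m, algebraMap D R (b (i + 1)) * z' ^ i with hS
  set U : R := algebraMap D R w + z' * S with hU
  have hrel : algebraMap D R x * U = -(z' ^ P.natDegree) := by
    have h1 := hz0
    rw [hmon.as_sum, map_add, map_pow, aeval_X, map_sum] at h1
    rw [hm, Finset.sum_range_succ'] at h1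
    simp only [map_mul, aeval_C, map_pow, aeval_X, pow_zero, mul_one] at h1
    have h2 : ∑ i ∈ Finset.range m, algebraMap D R (P.coeff (i + 1)) * z' ^ (i + 1) =
        algebraMap D R x * (z' * S) := by
      rw [hS, Finset.mul_sum, Finset.mul_sum]
      refine Finset.sum_congr rfl fun i hi => ?_
      have hi' : i + 1 < P.natDegree := by
        have := Finset.mem_range.mp hi
        omega
      rw [hb (i + 1) hi', map_mul, pow_succ]
      ring
    rw [h2, hw0, map_mul] at h1
    rw [hm, hU]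
    linear_combination h1
  -- `z` lies in the Jacobson radical
  have hzJ : z' ∈ Ideal.jacobson (⊥ : Ideal R) := by
    have h1 : z' ^ P.natDegree ∈ Ideal.jacobson (⊥ : Ideal R) := by
      have : z' ^ P.natDegree = algebraMap D R x * (-U) := by
        rw [mul_neg, hrel, neg_neg]
      rw [this]
      exact Ideal.mul_mem_right _ _ hxJ
    exact (Ideal.isRadical_jacobson (⊥ : Ideal R)) ⟨P.natDegree, h1⟩
  have hUunit : IsUnit U := isUnit_add_of_mem_jacobson (hw.map (algebraMap D R)) hzJ S
  obtain ⟨U', hU'⟩ := hUunit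
  have hxz : algebraMap D R x = z' ^ P.natDegree * ((-U'⁻¹ : Rˣ) : R) := by
    have h1 : algebraMap D R x * (U' : R) = -(z' ^ P.natDegree) := by rw [hU']; exact hrel
    have h2 : (U' : R) * ((U'⁻¹ : Rˣ) : R) = 1 := U'.mul_inv
    calc algebraMap D R x = algebraMap D R x * ((U' : R) * ((U'⁻¹ : Rˣ) : R)) := by
          rw [h2, mul_one]
      _ = (algebraMap D R x * (U' : R)) * ((U'⁻¹ : Rˣ) : R) := by ring
      _ = z' ^ P.natDegree * ((-U'⁻¹ : Rˣ) : R) := by
          rw [h1, Units.val_neg]; ring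
  have hxspan : algebraMap D R x ∈ Ideal.span {z'} := by
    rw [hxz, hm, pow_succ]
    rw [Ideal.mem_span_singleton]
    exact ⟨z' ^ m * ((-U'⁻¹ : Rˣ) : R), by ring⟩
  refine ⟨?_, ?_, ?_, ⟨-U'⁻¹, hxz⟩⟩
  · -- every element is in `(z)` or a unit
    intro r
    have hr : (r : L) ∈ (aeval z : D[X] →ₐ[D] L).range := by
      rw [← Algebra.adjoin_singleton_eq_range_aeval]
      exact r.2
    obtain ⟨g, hg⟩ := hr
    have hrg : r = aeval z' g := Subtype.ext (by rw [hcoe]; exact hg.symm)
    have hsplit : aeval z' g = z' * aeval z' g.divX + algebraMap D R (g.coeff 0) := by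
      conv_lhs => rw [← X_mul_divX_add g]
      rw [map_add, map_mul, aeval_X, aeval_C]
    by_cases hunit : IsUnit (g.coeff 0)
    · right
      rw [hrg, hsplit, add_comm]
      exact isUnit_add_of_mem_jacobson (hunit.map (algebraMap D R)) hzJ _
    · left
      have h1 : g.coeff 0 ∈ maximalIdeal D := (mem_maximalIdeal _).mpr hunit
      rw [hx.maximalIdeal_eq, Ideal.mem_span_singleton'] at h1
      obtain ⟨d, hd⟩ := h1
      rw [hrg, hsplit, ← hd, map_mul]
      refine Ideal.add_mem _ (Ideal.mul_mem_right _ _ (Ideal.mem_span_singleton_self z'))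
        (Ideal.mul_mem_left _ _ hxspan)
  · -- `z` is not a unit
    intro hzu
    have h1 : Ideal.jacobson (⊥ : Ideal R) = ⊤ := Ideal.eq_top_of_isUnit_mem _ hzJ hzu
    have h2 : (⊥ : Ideal R) = ⊤ := Ideal.jacobson_eq_top_iff.mp h1
    exact bot_ne_top h2
  · -- `z ≠ 0`
    intro hz0'
    have hzL : z = 0 := congrArg Subtype.val hz0'
    have h1 : aeval z P = algebraMap D L (P.coeff 0) := by
      rw [hzL, ← coeff_zero_eq_aeval_zero']
    rw [hz, hw0] at h1
    have h2 : x * w = 0 := hinj (by rw [← h1, map_zero])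
    rcases mul_eq_zero.mp h2 with h | h
    · exact hx.ne_zero h
    · exact hw.ne_zero h

/-- **SS2-A5 EISDVR.**  An Eisenstein extension `D[z]` of a discrete valuation ring `D` is a
discrete valuation ring with uniformiser `z`, and `x = z ^ n * unit`. -/
theorem eisDvr (hinj : Function.Injective (algebraMap D L))
    {x : D} (hx : Irreducible x) {P : D[X]} (hmon : P.Monic) (hdeg : 0 < P.natDegree)
    (hlow : ∀ i, i < P.natDegree → x ∣ P.coeff i)
    (h0 : ∃ w : D, IsUnit w ∧ P.coeff 0 = x * w)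
    {z : L} (hz : aeval z P = 0) :
    IsDiscreteValuationRing (Algebra.adjoin D {z}) ∧
    Irreducible (⟨z, Algebra.self_mem_adjoin_singleton D z⟩ : Algebra.adjoin D {z}) ∧
    (∀ r : Algebra.adjoin D {z}, ¬ IsUnit r ↔
      r ∈ Ideal.span {(⟨z, Algebra.self_mem_adjoin_singleton D z⟩ : Algebra.adjoin D {z})}) ∧
    ∃ v : (Algebra.adjoin D {z})ˣ,
      algebraMap D (Algebra.adjoin D {z}) x =
        (⟨z, Algebra.self_mem_adjoin_singleton D z⟩ : Algebra.adjoin D {z}) ^ P.natDegree * v := by
  obtain ⟨h1, h2, h3, h4⟩ := eis_core hinj hx hmon hdeg hlow h0 hz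
  set R := Algebra.adjoin D {z} with hR
  set z' : R := ⟨z, Algebra.self_mem_adjoin_singleton D z⟩ with hz'
  have hne : Ideal.span {z'} ≠ (⊤ : Ideal R) := by
    rw [Ne, Ideal.span_singleton_eq_top]
    exact h2
  have hiff : ∀ r : R, ¬ IsUnit r ↔ r ∈ Ideal.span {z'} := by
    intro r
    constructor
    · intro hr
      exact (h1 r).resolve_right hr
    · intro hr hu
      exact hne (Ideal.eq_top_of_isUnit_mem _ hr hu)
  have : IsLocalRing R := IsLocalRing.of_nonunits_add (by
    intro a b ha hb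
    exact (hiff _).mpr (Ideal.add_mem _ ((hiff a).mp ha) ((hiff b).mp hb)))
  have hmax : maximalIdeal R = Ideal.span {z'} := by
    ext r
    rw [mem_maximalIdeal]
    exact hiff r
  have : IsNoetherianRing R :=
    isNoetherianRing_of_fg ⟨{z}, by rw [Finset.coe_singleton]⟩
  have hnf : ¬ IsField R := by
    intro hf
    obtain ⟨y, hy⟩ := hf.mul_inv_cancel h3
    exact h2 (IsUnit.of_mul_eq_one y hy)
  have hprinc : (maximalIdeal R).IsPrincipal := ⟨⟨z', hmax⟩⟩
  have hdvr : IsDiscreteValuationRing R :=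
    ((IsDiscreteValuationRing.TFAE R hnf).out 0 4).mpr hprinc
  refine ⟨hdvr, ?_, hiff, h4⟩
  exact (IsDiscreteValuationRing.irreducible_iff_uniformizer z').mpr hmax

end

end Fermat.Agent.H96.SS2
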